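import Fermat.Agent.S56.GW.Fp
import Fermat.Agent.CFT.W.Scal
import Fermat.Agent.CFT.W.H2Fin

/-!
# S56 / [GW'] over a finite field `k` : WP GW-SCAL (`gw_scal`) and the final wrapper `greenberg_wiles_aux`.

`gw_scal` = `gw_card` applied to `rsRep p ρ`, `rsRep p ρ'`, `β₀ x y = t (β x y)`, `L₀ v = (L v).restrictScalars (ZMod p)`,
`e = finrank 𝔽_p ker (ρ' c + 1)`.
* `β₀` is `𝔽_p`-bilinear (`t` additive ⇒ `𝔽_p`-linear: `AddMonoidHom.toZModLinearMap`), equivariant for `cycloChar p`: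
  `(chiK p k g : k) = algebraMap (ZMod p) k (cycloChar p g)` (ring homs out of `ZMod p` are unique) and `t` is `𝔽_p`-linear;
* non-degenerate: if `t (β x y) = 0` for all `y` then `{β x y}` is a `k`-subspace of `k` contained in `ker t ≠ k`, so it is `0`;
* `Sel`, `Z1loc`, `B1loc`, `Z1`, `B1` : same underlying sets (`Z1_rsRep`, `B1_rsRep`);  `locRep (rsRep p ρ) v = rsRep p (locRep ρ v)` is `rfl`;
* `hEC` : `Nat.card = p ^ finrank` (`natCard_eq_pow_finrank'`; finiteness: `finite_H1`, `finite_H2` with the ctx of `exists_wctx_DS`), `card_H1_rsRep`,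
  `card_H2_rsRep`, `Nat.pow_le_pow_iff_right`;
* `#{w // ρ c w = w} = p ^ e` : `finrank_fix_eq_finrank_neg` for `β₀` over `ZMod p`.
-/

set_option autoImplicit false

open ExtCitation Module

namespace Fermat.Agent.S56

open CFT (levS levAll decomp Z1 B1 Z2 B2 H1 H2 IsSmooth IsEquivPairing DS cup11 chiRep)

namespace ScalAux

open CFT (rsRep)

section

variable (p : ℕ) [Fact p.Prime] {k : Type} [Field k] [Algebra (ZMod p) k] {G : Type} [Group G]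
  {V : Type} [AddCommGroup V] [Module k V] [Module (ZMod p) V] [IsScalarTower (ZMod p) k V]

theorem mem_Z1_rs (𝒰 : CFT.Levels G) (ρ : Representation k G V) {a : G → V} :
    a ∈ Z1 𝒰 (rsRep p ρ) ↔ a ∈ Z1 𝒰 ρ := by
  rw [CFT.Z1_rsRep]; rfl

theorem mem_B1_rs (ρ : Representation k G V) {a : G → V} :
    a ∈ B1 (rsRep p ρ) ↔ a ∈ B1 ρ := by
  rw [CFT.B1_rsRep]; rfl

end

theorem two_ne_zero_zmod {p : ℕ} [Fact p.Prime] (hp2 : p ≠ 2) : (2 : ZMod p) ≠ 0 := by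
  intro h
  have h1 : ((2 : ℕ) : ZMod p) = 0 := by exact_mod_cast h
  rw [ZMod.natCast_eq_zero_iff] at h1
  exact hp2 ((Nat.prime_dvd_prime_iff_eq Fact.out Nat.prime_two).1 h1)

/-- a non zero additive form on a field detects non zero `k`-lines. -/
theorem eq_zero_of_forall_t {p : ℕ} {k : Type} [Field k] (t : k →+ ZMod p) (ht : t ≠ 0) {b : k}
    (h : ∀ z : k, t (z * b) = 0) : b = 0 := by
  by_contra hb
  apply ht
  ext z
  have := h (z / b)
  rwa [div_mul_cancel₀ _ hb] at this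

end ScalAux

open ScalAux
open CFT (rsRep)

theorem gw_scal {p : ℕ} [Fact p.Prime] (hp2 : p ≠ 2) {k : Type} [Field k] [Finite k] [CharP k p]
    [Algebra (ZMod p) k]
    (S₀ Q : Finset Nat.Primes) (hdisj : Disjoint S₀ Q) (hpS : pPrime p ∈ S₀)
    {W W' : Type} [AddCommGroup W] [Module k W] [FiniteDimensional k W]
    [AddCommGroup W'] [Module k W'] [FiniteDimensional k W']
    [Module (ZMod p) W] [IsScalarTower (ZMod p) k W] [Module (ZMod p) W'] [IsScalarTower (ZMod p) k W']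
    (ρ : Representation k GQ W) (ρ' : Representation k GQ W')
    (hρ : IsSmooth (levS (S₀ ∪ Q)) ρ) (hρ' : IsSmooth (levS (S₀ ∪ Q)) ρ')
    (β : W →ₗ[k] W' →ₗ[k] k) (hβ : IsEquivPairing ρ ρ' (chiK p k) β)
    (hβl : ∀ x, (∀ y, β x y = 0) → x = 0) (hβr : ∀ y, (∀ x, β x y = 0) → y = 0)
    (h0 : ∀ w, (∀ g, ρ g w = w) → w = 0) (h0' : ∀ w, (∀ g, ρ' g w = w) → w = 0)
    (L : ∀ v : Nat.Primes, Submodule k (↥(decomp v) → W))
    (hLB : ∀ v ∈ S₀, B1loc ρ v ≤ L v) (hLZ : ∀ v ∈ S₀, L v ≤ Z1loc ρ v)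
    (hkill : ∀ b ∈ Z1 (levS (S₀ ∪ Q)) ρ', (∀ q ∈ Q, resLoc k q b ∈ B1loc ρ' q) → b ∈ B1 ρ')
    (t : k →+ ZMod p) (ht : t ≠ 0)
    (hG3 : ∀ q ∈ Q, ∀ b ∈ Z1loc ρ' q, (∀ a ∈ Z1loc ρ q,
      (fun g => t (cup11 (locRep ρ' q) β a b g)) ∈
        B2 (levAll.comap (decomp q).subtype) (chiRep ((cycloChar p).comp (decomp q).subtype))) →
      b ∈ B1loc ρ' q)
    (c : GQ) (hc : c * c = 1) (hχc : cycloChar p c = -1)
    (hEC : Nat.card (H2 (levS (S₀ ∪ Q)) ρ') * Nat.card {w : W' // ρ' c w = -w} ≤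
      Nat.card (H1 (levS (S₀ ∪ Q)) ρ')) :
    Finite ↥(Sel (S₀ ∪ Q) S₀ ρ L) ∧
      Nat.card ↥(Sel (S₀ ∪ Q) S₀ ρ L) * Nat.card W ^ (S₀.card + Q.card) * Nat.card {w : W // ρ c w = w} ≤
        (∏ v ∈ S₀, Nat.card ↥(L v)) * (∏ q ∈ Q, Nat.card ↥(Z1loc ρ q)) * Nat.card W := by
  have hWfin : Finite W := Module.finite_of_finite k
  have hW'fin : Finite W' := Module.finite_of_finite k
  have : FiniteDimensional (ZMod p) W := Module.Finite.of_finite
  have : FiniteDimensional (ZMod p) W' := Module.Finite.of_finite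
  have htsmul : ∀ (a : ZMod p) (z : k), t (algebraMap (ZMod p) k a * z) = a * t z := fun a z => by
    rw [← Algebra.smul_def]
    exact (t.toZModLinearMap p).map_smul a z
  let β₀ : W →ₗ[ZMod p] W' →ₗ[ZMod p] ZMod p := LinearMap.mk₂ (ZMod p) (fun x y => t (β x y))
    (fun x x' y => by simp)
    (fun a x y => by
      rw [← IsScalarTower.algebraMap_smul k a x, map_smul, LinearMap.smul_apply, smul_eq_mul,
        htsmul, smul_eq_mul])
    (fun x y y' => by simp)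
    (fun a x y => by
      rw [← IsScalarTower.algebraMap_smul k a y, map_smul, smul_eq_mul, htsmul, smul_eq_mul])
  have hβ₀app : ∀ x y, β₀ x y = t (β x y) := fun x y => rfl
  have hchi : ∀ g, ((chiK p k g : kˣ) : k) = algebraMap (ZMod p) k ((cycloChar p g : (ZMod p)ˣ) : ZMod p) := by
    intro g
    have : (ZMod.castHom (dvd_refl p) k : ZMod p →+* k) = algebraMap (ZMod p) k :=
      RingHom.ext_zmod _ _
    rw [← this]
    rfl
  have hβ₀ : IsEquivPairing (rsRep p ρ) (rsRep p ρ') (cycloChar p) β₀ := by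
    intro g x y
    rw [hβ₀app, hβ₀app, CFT.rsRep_apply, CFT.rsRep_apply, hβ g x y, hchi, htsmul]
  have hβl₀ : ∀ x, (∀ y, β₀ x y = 0) → x = 0 := by
    intro x hx
    refine hβl x fun y => eq_zero_of_forall_t t ht fun z => ?_
    have := hx (z • y)
    rwa [hβ₀app, map_smul, smul_eq_mul] at this
  have hβr₀ : ∀ y, (∀ x, β₀ x y = 0) → y = 0 := by
    intro y hy
    refine hβr y fun x => eq_zero_of_forall_t t ht fun z => ?_
    have := hy (z • x)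
    rwa [hβ₀app, map_smul, LinearMap.smul_apply, smul_eq_mul] at this
  let L₀ : ∀ v : Nat.Primes, Submodule (ZMod p) (↥(decomp v) → W) := fun v =>
    (L v).restrictScalars (ZMod p)
  have hZloc : ∀ (v : Nat.Primes) (a : ↥(decomp v) → W), a ∈ Z1loc (rsRep p ρ) v ↔ a ∈ Z1loc ρ v :=
    fun v a => mem_Z1_rs p _ (locRep ρ v)
  have hZloc' : ∀ (v : Nat.Primes) (a : ↥(decomp v) → W'),
      a ∈ Z1loc (rsRep p ρ') v ↔ a ∈ Z1loc ρ' v := fun v a => mem_Z1_rs p _ (locRep ρ' v)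
  have hBloc : ∀ (v : Nat.Primes) (a : ↥(decomp v) → W), a ∈ B1loc (rsRep p ρ) v ↔ a ∈ B1loc ρ v :=
    fun v a => mem_B1_rs p (locRep ρ v)
  have hBloc' : ∀ (v : Nat.Primes) (a : ↥(decomp v) → W'),
      a ∈ B1loc (rsRep p ρ') v ↔ a ∈ B1loc ρ' v := fun v a => mem_B1_rs p (locRep ρ' v)
  -- finiteness and cardinalities
  obtain ⟨lam, Φ, w⟩ := CFT.exists_wctx_DS hp2 (S₀ ∪ Q) (Finset.mem_union_left _ hpS)
  have hρ'₀ : IsSmooth (levS (S₀ ∪ Q)) (rsRep p ρ') := CFT.isSmooth_rsRep p hρ'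
  have hfH1 : Module.Finite (ZMod p) (H1 (levS (S₀ ∪ Q)) (rsRep p ρ')) :=
    CFT.finite_H1 (D := DS (S₀ ∪ Q)) w.ctx hρ'₀
  have hfH2 : Module.Finite (ZMod p) (H2 (levS (S₀ ∪ Q)) (rsRep p ρ')) :=
    (CFT.finite_H2 (D := DS (S₀ ∪ Q)) w.ctx hρ'₀).1
  set e := finrank (ZMod p) ↥(LinearMap.ker (rsRep p ρ' c + LinearMap.id)) with he
  have hcard' : Nat.card {w : W' // ρ' c w = -w} = p ^ e := by
    rw [he, ← (CFT.natCard_eq_pow_finrank' (p := p) _).2]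
    refine Nat.card_congr (Equiv.subtypeEquivRight fun w => ?_)
    rw [LinearMap.mem_ker, LinearMap.add_apply, LinearMap.id_apply, CFT.rsRep_apply,
      eq_neg_iff_add_eq_zero]
  have hcard : Nat.card {w : W // ρ c w = w} = p ^ e := by
    rw [he, ← CFT.finrank_fix_eq_finrank_neg (two_ne_zero_zmod hp2) (rsRep p ρ) (rsRep p ρ')
      (cycloChar p) β₀ hβ₀ hβl₀ hβr₀ c hc hχc, ← (CFT.natCard_eq_pow_finrank' (p := p) _).2]
    refine Nat.card_congr (Equiv.subtypeEquivRight fun w => ?_)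
    rw [LinearMap.mem_ker, LinearMap.sub_apply, LinearMap.id_apply, CFT.rsRep_apply, sub_eq_zero]
  have hEC₀ : finrank (ZMod p) (H2 (levS (S₀ ∪ Q)) (rsRep p ρ')) + e ≤
      finrank (ZMod p) (H1 (levS (S₀ ∪ Q)) (rsRep p ρ')) := by
    rw [← CFT.card_H1_rsRep p, ← CFT.card_H2_rsRep p, hcard',
      (CFT.natCard_eq_pow_finrank' (p := p) _).2, (CFT.natCard_eq_pow_finrank' (p := p) _).2,
      ← pow_add] at hEC
    exact (Nat.pow_le_pow_iff_right (Fact.out : p.Prime).one_lt).1 hEC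
  obtain ⟨hfin, hmain⟩ := gw_card hp2 S₀ Q hdisj hpS (rsRep p ρ) (rsRep p ρ')
    (CFT.isSmooth_rsRep p hρ) hρ'₀ β₀ hβ₀ hβl₀ hβr₀ h0 h0' L₀
    (fun v hv a ha => hLB v hv ((hBloc v a).1 ha))
    (fun v hv a ha => (hZloc v a).2 (hLZ v hv ha))
    (fun b hb h => (mem_B1_rs p ρ').2 (hkill b ((mem_Z1_rs p _ ρ').1 hb)
      fun q hq => (hBloc' q _).1 (h q hq)))
    (fun q hq b hb h => (hBloc' q b).2 (hG3 q hq b ((hZloc' q b).1 hb)
      fun a ha => h a ((hZloc q a).2 ha)))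
    e hEC₀
  have eSel : ↥(Sel (S₀ ∪ Q) S₀ (rsRep p ρ) L₀) ≃ ↥(Sel (S₀ ∪ Q) S₀ ρ L) :=
    Equiv.subtypeEquivRight fun a => by
      rw [mem_Sel, mem_Sel, mem_Z1_rs]
      rfl
  have e1 : ∀ v, Nat.card ↥(L₀ v) = Nat.card ↥(L v) := fun v => rfl
  have e2 : ∀ q, Nat.card ↥(Z1loc (rsRep p ρ) q) = Nat.card ↥(Z1loc ρ q) := fun q =>
    Nat.card_congr (Equiv.subtypeEquivRight fun a => hZloc q a)
  refine ⟨Finite.of_equiv _ eSel, ?_⟩
  rw [hcard, ← Nat.card_congr eSel]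
  simp only [e1, e2] at hmain
  exact hmain

/-- **[GW']** modulo (G3) (`hG3`, helper73) and the global Euler characteristic inequality (`hEC`). -/
theorem greenberg_wiles_aux {p : ℕ} [Fact p.Prime] (hp2 : p ≠ 2) {k : Type} [Field k] [Finite k] [CharP k p]
    (S₀ Q : Finset Nat.Primes) (hdisj : Disjoint S₀ Q) (hpS : pPrime p ∈ S₀)
    {W W' : Type} [AddCommGroup W] [Module k W] [FiniteDimensional k W]
    [AddCommGroup W'] [Module k W'] [FiniteDimensional k W']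
    (ρ : Representation k GQ W) (ρ' : Representation k GQ W')
    (hρ : IsSmooth (levS (S₀ ∪ Q)) ρ) (hρ' : IsSmooth (levS (S₀ ∪ Q)) ρ')
    (β : W →ₗ[k] W' →ₗ[k] k) (hβ : IsEquivPairing ρ ρ' (chiK p k) β)
    (hβl : ∀ x, (∀ y, β x y = 0) → x = 0) (hβr : ∀ y, (∀ x, β x y = 0) → y = 0)
    (h0 : ∀ w, (∀ g, ρ g w = w) → w = 0) (h0' : ∀ w, (∀ g, ρ' g w = w) → w = 0)
    (L : ∀ v : Nat.Primes, Submodule k (↥(decomp v) → W))
    (hLB : ∀ v ∈ S₀, B1loc ρ v ≤ L v) (hLZ : ∀ v ∈ S₀, L v ≤ Z1loc ρ v)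
    (hkill : ∀ b ∈ Z1 (levS (S₀ ∪ Q)) ρ', (∀ q ∈ Q, resLoc k q b ∈ B1loc ρ' q) → b ∈ B1 ρ')
    (t : k →+ ZMod p) (ht : t ≠ 0)
    (hG3 : ∀ q ∈ Q, ∀ b ∈ Z1loc ρ' q, (∀ a ∈ Z1loc ρ q,
      (fun g => t (cup11 (locRep ρ' q) β a b g)) ∈
        B2 (levAll.comap (decomp q).subtype) (chiRep ((cycloChar p).comp (decomp q).subtype))) →
      b ∈ B1loc ρ' q)
    (c : GQ) (hc : c * c = 1) (hχc : cycloChar p c = -1)
    (hEC : Nat.card (H2 (levS (S₀ ∪ Q)) ρ') * Nat.card {w : W' // ρ' c w = -w} ≤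
      Nat.card (H1 (levS (S₀ ∪ Q)) ρ')) :
    Finite ↥(Sel (S₀ ∪ Q) S₀ ρ L) ∧
      Nat.card ↥(Sel (S₀ ∪ Q) S₀ ρ L) * Nat.card W ^ (S₀.card + Q.card) * Nat.card {w : W // ρ c w = w} ≤
        (∏ v ∈ S₀, Nat.card ↥(L v)) * (∏ q ∈ Q, Nat.card ↥(Z1loc ρ q)) * Nat.card W := by
  letI : Algebra (ZMod p) k := ZMod.algebra k p
  letI : Module (ZMod p) W := Module.compHom W (algebraMap (ZMod p) k)
  letI : Module (ZMod p) W' := Module.compHom W' (algebraMap (ZMod p) k)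
  haveI : IsScalarTower (ZMod p) k W := ⟨fun a b x => by
    change (a • b) • x = (algebraMap (ZMod p) k a) • (b • x)
    rw [Algebra.smul_def, mul_smul]⟩
  haveI : IsScalarTower (ZMod p) k W' := ⟨fun a b x => by
    change (a • b) • x = (algebraMap (ZMod p) k a) • (b • x)
    rw [Algebra.smul_def, mul_smul]⟩
  exact gw_scal hp2 S₀ Q hdisj hpS ρ ρ' hρ hρ' β hβ hβl hβr h0 h0' L hLB hLZ hkill t ht hG3 c hc hχc hEC

end Fermat.Agent.S56
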