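import Fermat.Agent.S56.GW.FpDefs

/-! # S56 / [GW'] over `𝔽_p`, WP GW-KILL (see FpDefs.lean). -/

set_option autoImplicit false
set_option linter.style.haveILetI false

open ExtCitation Module

namespace Fermat.Agent.S56

open CFT (levS levAll decomp Z1 B1 Z2 B2 H1 H2 IsSmooth IsEquivPairing DS cup11 chiRep)

variable {p : ℕ} [Fact p.Prime] {W W' : Type} [AddCommGroup W] [Module (ZMod p) W]
  [AddCommGroup W'] [Module (ZMod p) W']

theorem finrank_sel_perp (hp2 : p ≠ 2) [FiniteDimensional (ZMod p) W] [FiniteDimensional (ZMod p) W']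
    (S₀ Q : Finset Nat.Primes) (hdisj : Disjoint S₀ Q) (hpS : pPrime p ∈ S₀)
    (ρ : Representation (ZMod p) GQ W) (ρ' : Representation (ZMod p) GQ W')
    (hρ : IsSmooth (levS (S₀ ∪ Q)) ρ) (hρ' : IsSmooth (levS (S₀ ∪ Q)) ρ')
    (β : W →ₗ[ZMod p] W' →ₗ[ZMod p] ZMod p) (hβ : IsEquivPairing ρ ρ' (cycloChar p) β)
    (hβl : ∀ x, (∀ y, β x y = 0) → x = 0) (hβr : ∀ y, (∀ x, β x y = 0) → y = 0)
    (L : ∀ v : Nat.Primes, Submodule (ZMod p) (↥(decomp v) → W))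
    (hkill : ∀ b ∈ Z1 (levS (S₀ ∪ Q)) ρ', (∀ q ∈ Q, resLoc (ZMod p) q b ∈ B1loc ρ' q) → b ∈ B1 ρ')
    (hG3 : ∀ q ∈ Q, ∀ b ∈ Z1loc ρ' q, (∀ a ∈ Z1loc ρ q, cup11 (locRep ρ' q) β a b ∈
      B2 (levAll.comap (decomp q).subtype) (chiRep ((cycloChar p).comp (decomp q).subtype))) →
      b ∈ B1loc ρ' q)
    {lam : ∀ v : (DS (S₀ ∪ Q)).ι,
      ((DS (S₀ ∪ Q)).Gv v × (DS (S₀ ∪ Q)).Gv v → ZMod p) →ₗ[ZMod p] ZMod p}
    {Φ : (DS (S₀ ∪ Q)).CC3 (ZMod p) →ₗ[ZMod p] ZMod p}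
    (ctx : (DS (S₀ ∪ Q)).Ctx (cycloChar p) lam Φ) :
    finrank (ZMod p) ((DS (S₀ ∪ Q)).Sel (ρ.dual.twist (cycloChar p))
      ((DS (S₀ ∪ Q)).perp ρ (cycloChar p) lam (locCond S₀ Q ρ L))) = 0 := by
  obtain ⟨e, he, heβ⟩ := CFT.exists_equiv_of_pairing ρ ρ' (cycloChar p) β hβ hβl hβr
  have hes : ∀ g f, e.symm ((ρ.dual.twist (cycloChar p)) g f) = ρ' g (e.symm f) := by
    intro g f
    rw [LinearEquiv.symm_apply_eq, he, LinearEquiv.apply_symm_apply]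
  have hM' : IsSmooth (levS (S₀ ∪ Q)) (ρ.dual.twist (cycloChar p)) :=
    hρ.dualTwist ctx.chi_smooth
  have key : (DS (S₀ ∪ Q)).SelZ1 (ρ.dual.twist (cycloChar p))
      ((DS (S₀ ∪ Q)).perp ρ (cycloChar p) lam (locCond S₀ Q ρ L)) ≤
      B1 (ρ.dual.twist (cycloChar p)) := by
    rintro b ⟨hbZ, hbL⟩
    have hb'Z : (e.symm : Module.Dual (ZMod p) W →ₗ[ZMod p] W') ∘ b ∈ Z1 (levS (S₀ ∪ Q)) ρ' :=
      CFT.comp_mem_Z1 (e.symm : Module.Dual (ZMod p) W →ₗ[ZMod p] W') hes hbZ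
    have hb'B : (e.symm : Module.Dual (ZMod p) W →ₗ[ZMod p] W') ∘ b ∈ B1 ρ' := by
      refine hkill _ hb'Z fun q hq => ?_
      have hqT : q ∈ S₀ ∪ Q := Finset.mem_union_right _ hq
      have hqS : q ∉ S₀ := fun h => Finset.disjoint_left.1 hdisj h hq
      refine hG3 q hq _ (CFT.comp_hom_mem_Z1 (decomp q).subtype
        ((DS (S₀ ∪ Q)).cont ⟨q, hqT⟩) hb'Z) fun a ha => ?_
      obtain ⟨hbv, hperp⟩ := hbL ⟨q, hqT⟩ (Set.mem_univ _)
      have haL : a ∈ locCond S₀ Q ρ L ⟨q, hqT⟩ := by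
        rw [locCond, if_neg hqS]
        exact ha
      have h0 := hperp a haL
      have hZ2 := CFT.cup11_mem_Z2
        ((CFT.isEquivPairing_evalP ρ (cycloChar p)).loc (D := DS (S₀ ∪ Q)) ⟨q, hqT⟩)
        (hM'.comp_hom ((DS (S₀ ∪ Q)).r ⟨q, hqT⟩) ((DS (S₀ ∪ Q)).cont ⟨q, hqT⟩)) ha hbv
      by_contra hB
      refine CFT.lam_ne_zero hp2 (S₀ ∪ Q) (Finset.mem_union_left _ hpS) ctx ⟨q, hqT⟩
        (c := cup11 ((DS (S₀ ∪ Q)).loc (ρ.dual.twist (cycloChar p)) ⟨q, hqT⟩)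
          (CFT.evalP (ZMod p) W) a ((DS (S₀ ∪ Q)).res1 (k := ZMod p) b ⟨q, hqT⟩)) ?_ ?_ h0
      · rw [CFT.loc_chiRep]
        exact hZ2
      · rw [CFT.loc_chiRep]
        intro hB'
        apply hB
        convert hB' using 1
        funext g
        simp only [cup11]
        have h1 : (locRep ρ' q) g.1 ((resLoc (ZMod p) q)
            ((e.symm : Module.Dual (ZMod p) W →ₗ[ZMod p] W') ∘ b) g.2) =
            e.symm ((ρ.dual.twist (cycloChar p)) (g.1 : GQ) (b (g.2 : GQ))) := (hes _ _).symm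
        rw [h1, ← heβ, LinearEquiv.apply_symm_apply]
        rfl
    have := CFT.comp_mem_B1 (e : W' →ₗ[ZMod p] Module.Dual (ZMod p) W) he hb'B
    convert this using 1
    funext g
    simp
  have htop : (B1 (ρ.dual.twist (cycloChar p))).submoduleOf
      ((DS (S₀ ∪ Q)).SelZ1 (ρ.dual.twist (cycloChar p))
      ((DS (S₀ ∪ Q)).perp ρ (cycloChar p) lam (locCond S₀ Q ρ L))) = ⊤ :=
    Submodule.submoduleOf_eq_top.2 key
  haveI : Subsingleton ((DS (S₀ ∪ Q)).Sel (ρ.dual.twist (cycloChar p))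
      ((DS (S₀ ∪ Q)).perp ρ (cycloChar p) lam (locCond S₀ Q ρ L))) :=
    Submodule.Quotient.subsingleton_iff.2 htop
  exact finrank_zero_of_subsingleton

end Fermat.Agent.S56
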