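import Fermat.Agent.S56.GW.FpSel
import Fermat.Agent.S56.GW.FpKill

/-!
# S56 / [GW'] over `𝔽_p`, WP GW-CARD : assembly (see FpDefs.lean).

`D = DS (S₀ ∪ Q)`, `(lam,Φ,w)` from `exists_wctx_DS`, `L' = locCond S₀ Q ρ L`, `M' = ρ.dual.twist χ ≅ ρ'` (`exists_equiv_of_pairing`; `IsoRep.H1`, `IsoRep.H2'`,
`IsoRep.invariants'`).  `gw_le w hρ L' .. e hEC'` with `h⁰(M) = h⁰(M') = 0`, `finrank_sel_perp`:   `s + e + ∑_v h⁰_v ≤ ∑_v ℓ_v`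
(`s = finrank D.Sel`, `ℓ_v = finrank D.LocQ`; `hfin` = `finite_LocQ`).   `card_mul_invariants`:  `#SelZ1 = p^s #W`,  `#L'_v p^(h⁰_v) = p^(ℓ_v) #W`.  Hence
`#SelZ1 #W^|T| p^e p^(∑h⁰_v) = #W^(|T|+1) p^(s+e+∑h⁰_v) ≤ #W^(|T|+1) p^(∑ℓ_v) = #W ∏_v (#L'_v p^(h⁰_v))`; cancel `p^(∑h⁰_v)`.
`∏_{v : ↥(S₀ ∪ Q)} X v.1 = (∏_{S₀} X)(∏_Q X)` (`Finset.prod_coe_sort`, `Finset.prod_union hdisj`), `|T| = |S₀| + |Q|`.
-/

set_option autoImplicit false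
set_option linter.style.haveILetI false

open ExtCitation Module

namespace Fermat.Agent.S56

open CFT (levS levAll decomp Z1 B1 Z2 B2 H1 H2 IsSmooth IsEquivPairing DS cup11 chiRep)

variable {p : ℕ} [Fact p.Prime] {W W' : Type} [AddCommGroup W] [Module (ZMod p) W]
  [AddCommGroup W'] [Module (ZMod p) W']

/-- the numerology of `gw_card` -/
theorem gw_card_arith {ι : Type} [Fintype ι] (P w s e σ : ℕ) (hP : 0 < P) (l h0 ℓ : ι → ℕ)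
    (hσ : σ = P ^ s * w) (hl : ∀ v, l v * P ^ h0 v = P ^ ℓ v * w)
    (hle : s + e + ∑ v, h0 v ≤ ∑ v, ℓ v) :
    σ * w ^ Fintype.card ι * P ^ e ≤ (∏ v, l v) * w := by
  have h1 : (∏ v, l v) * P ^ (∑ v, h0 v) = P ^ (∑ v, ℓ v) * w ^ Fintype.card ι := by
    rw [← Finset.prod_pow_eq_pow_sum, ← Finset.prod_mul_distrib, Finset.prod_congr rfl
      (fun v _ => hl v), Finset.prod_mul_distrib, Finset.prod_pow_eq_pow_sum, Finset.prod_const,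
      Finset.card_univ]
  have h2 : 0 < P ^ (∑ v, h0 v) := pow_pos hP _
  refine Nat.le_of_mul_le_mul_right ?_ h2
  calc σ * w ^ Fintype.card ι * P ^ e * P ^ (∑ v, h0 v)
      = P ^ (s + e + ∑ v, h0 v) * (w ^ Fintype.card ι * w) := by rw [hσ, pow_add, pow_add]; ring
    _ ≤ P ^ (∑ v, ℓ v) * (w ^ Fintype.card ι * w) :=
        Nat.mul_le_mul_right _ (Nat.pow_le_pow_right hP hle)
    _ = (∏ v, l v) * w * P ^ (∑ v, h0 v) := by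
        rw [mul_right_comm (∏ v, l v), h1]; ring

theorem finrank_invariants_eq_zero {k G V : Type} [Field k] [Group G] [AddCommGroup V] [Module k V]
    (ρ : Representation k G V) (h0 : ∀ w, (∀ g, ρ g w = w) → w = 0) :
    finrank k ↥ρ.invariants = 0 := by
  haveI : Subsingleton ↥ρ.invariants := ⟨fun a b => by
    apply Subtype.ext
    rw [h0 a.1 a.2, h0 b.1 b.2]⟩
  exact finrank_zero_of_subsingleton

/-- **[GW'] over `𝔽_p`**, modulo (G3) and the Euler characteristic inequality `hEC`. -/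
theorem gw_card (hp2 : p ≠ 2) [FiniteDimensional (ZMod p) W] [FiniteDimensional (ZMod p) W']
    (S₀ Q : Finset Nat.Primes) (hdisj : Disjoint S₀ Q) (hpS : pPrime p ∈ S₀)
    (ρ : Representation (ZMod p) GQ W) (ρ' : Representation (ZMod p) GQ W')
    (hρ : IsSmooth (levS (S₀ ∪ Q)) ρ) (hρ' : IsSmooth (levS (S₀ ∪ Q)) ρ')
    (β : W →ₗ[ZMod p] W' →ₗ[ZMod p] ZMod p) (hβ : IsEquivPairing ρ ρ' (cycloChar p) β)
    (hβl : ∀ x, (∀ y, β x y = 0) → x = 0) (hβr : ∀ y, (∀ x, β x y = 0) → y = 0)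
    (h0 : ∀ w, (∀ g, ρ g w = w) → w = 0) (h0' : ∀ w, (∀ g, ρ' g w = w) → w = 0)
    (L : ∀ v : Nat.Primes, Submodule (ZMod p) (↥(decomp v) → W))
    (hLB : ∀ v ∈ S₀, B1loc ρ v ≤ L v) (hLZ : ∀ v ∈ S₀, L v ≤ Z1loc ρ v)
    (hkill : ∀ b ∈ Z1 (levS (S₀ ∪ Q)) ρ', (∀ q ∈ Q, resLoc (ZMod p) q b ∈ B1loc ρ' q) → b ∈ B1 ρ')
    (hG3 : ∀ q ∈ Q, ∀ b ∈ Z1loc ρ' q, (∀ a ∈ Z1loc ρ q, cup11 (locRep ρ' q) β a b ∈
      B2 (levAll.comap (decomp q).subtype) (chiRep ((cycloChar p).comp (decomp q).subtype))) →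
      b ∈ B1loc ρ' q)
    (e : ℕ) (hEC : finrank (ZMod p) (H2 (levS (S₀ ∪ Q)) ρ') + e ≤
      finrank (ZMod p) (H1 (levS (S₀ ∪ Q)) ρ')) :
    Finite ↥(Sel (S₀ ∪ Q) S₀ ρ L) ∧
      Nat.card ↥(Sel (S₀ ∪ Q) S₀ ρ L) * Nat.card W ^ (S₀.card + Q.card) * p ^ e ≤
        (∏ v ∈ S₀, Nat.card ↥(L v)) * (∏ q ∈ Q, Nat.card ↥(Z1loc ρ q)) * Nat.card W := by
  classical
  have hpT : pPrime p ∈ S₀ ∪ Q := Finset.mem_union_left _ hpS
  obtain ⟨lam, Φ, w⟩ := CFT.exists_wctx_DS hp2 (S₀ ∪ Q) hpT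
  have hρv : ∀ v : (DS (S₀ ∪ Q)).ι, IsSmooth ((DS (S₀ ∪ Q)).levv v) ((DS (S₀ ∪ Q)).loc ρ v) :=
    fun v => hρ.comp_hom ((DS (S₀ ∪ Q)).r v) ((DS (S₀ ∪ Q)).cont v)
  have hle : ∀ v, locCond S₀ Q ρ L v ≤ Z1 ((DS (S₀ ∪ Q)).levv v) ((DS (S₀ ∪ Q)).loc ρ v) := by
    intro v
    by_cases hv : v.1 ∈ S₀
    · rw [locCond, if_pos hv]
      exact hLZ v.1 hv
    · rw [locCond, if_neg hv]
  have hge : ∀ v, B1 ((DS (S₀ ∪ Q)).loc ρ v) ≤ locCond S₀ Q ρ L v := by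
    intro v
    by_cases hv : v.1 ∈ S₀
    · rw [locCond, if_pos hv]
      exact hLB v.1 hv
    · rw [locCond, if_neg hv]
      exact CFT.B1_le_Z1 (hρv v)
  have hfin := CFT.finite_LocQ w.ctx hρ (locCond S₀ Q ρ L) hle
  obtain ⟨ε, hε, -⟩ := CFT.exists_equiv_of_pairing ρ ρ' (cycloChar p) β hβ hβl hβr
  have iso : CFT.IsoRep ρ' (ρ.dual.twist (cycloChar p)) := ⟨ε, hε⟩
  obtain ⟨e1⟩ := iso.H1 (D := DS (S₀ ∪ Q))
  obtain ⟨e2⟩ := iso.H2' (𝒰 := levS (S₀ ∪ Q))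
  obtain ⟨e3⟩ := iso.invariants'
  have e1' : finrank (ZMod p) (H1 (levS (S₀ ∪ Q)) ρ') =
      finrank (ZMod p) (H1 (DS (S₀ ∪ Q)).lev (ρ.dual.twist (cycloChar p))) := e1.finrank_eq
  have e2' : finrank (ZMod p) (H2 (levS (S₀ ∪ Q)) ρ') =
      finrank (ZMod p) (H2 (DS (S₀ ∪ Q)).lev (ρ.dual.twist (cycloChar p))) := e2.finrank_eq
  have e3' := e3.finrank_eq
  have z0 := finrank_invariants_eq_zero ρ h0
  have z0' := finrank_invariants_eq_zero ρ' h0'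
  have hgw := CFT.gw_le w hρ (locCond S₀ Q ρ L) hle hge hfin e (by omega)
  rw [finrank_sel_perp hp2 S₀ Q hdisj hpS ρ ρ' hρ hρ' β hβ hβl hβr L hkill hG3 w.ctx] at hgw
  have hBS : B1 ρ ≤ (DS (S₀ ∪ Q)).SelZ1 ρ (locCond S₀ Q ρ L) := by
    intro b hb
    exact ⟨CFT.B1_le_Z1 hρ hb, fun v _ => hge v (CFT.comp_hom_mem_B1 ((DS (S₀ ∪ Q)).r v) hb)⟩
  obtain ⟨f1, c1⟩ := CFT.card_mul_invariants ρ _ hBS (CFT.finite_Sel w.ctx hρ (locCond S₀ Q ρ L))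
  rw [z0, pow_zero, mul_one] at c1
  have c2 := fun v => (CFT.card_mul_invariants ((DS (S₀ ∪ Q)).loc ρ v) _ (hge v) (hfin v)).2
  have harith := gw_card_arith p (Nat.card W)
    (finrank (ZMod p) ((DS (S₀ ∪ Q)).Sel ρ (locCond S₀ Q ρ L))) e _ (Fact.out : p.Prime).pos _
    (fun v => finrank (ZMod p) ↥((DS (S₀ ∪ Q)).loc ρ v).invariants)
    (fun v => finrank (ZMod p) ((DS (S₀ ∪ Q)).LocQ ρ (locCond S₀ Q ρ L) v)) c1 c2 (by omega)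
  rw [selZ1_locCond] at f1 harith
  refine ⟨f1, ?_⟩
  have hcard : Fintype.card (DS (S₀ ∪ Q)).ι = S₀.card + Q.card := by
    rw [← Finset.card_union_of_disjoint hdisj]
    exact Fintype.card_coe _
  have hprod : ∏ v : (DS (S₀ ∪ Q)).ι, Nat.card ↥(locCond S₀ Q ρ L v) =
      (∏ v ∈ S₀, Nat.card ↥(L v)) * (∏ q ∈ Q, Nat.card ↥(Z1loc ρ q)) := by
    have h1 : ∏ v : (DS (S₀ ∪ Q)).ι, Nat.card ↥(locCond S₀ Q ρ L v) =
        ∏ v ∈ S₀ ∪ Q, Nat.card ↥(if v ∈ S₀ then L v else Z1loc ρ v) :=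
      Finset.prod_coe_sort (S₀ ∪ Q) (fun v => Nat.card ↥(if v ∈ S₀ then L v else Z1loc ρ v))
    rw [h1, Finset.prod_union hdisj]
    congr 1
    · exact Finset.prod_congr rfl fun v hv => by rw [if_pos hv]
    · exact Finset.prod_congr rfl fun v hv => by
        rw [if_neg (fun h => Finset.disjoint_left.1 hdisj h hv)]
  rw [hcard, hprod] at harith
  exact harith

end Fermat.Agent.S56
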