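import Fermat.Agent.S56.Defs
import Fermat.Agent.CFT.W.GW
import Fermat.Agent.CFT.W.LamNe
import Fermat.Agent.CFT.W.Card.Basic
import Fermat.Agent.CFT.W.Card.Pair
import Fermat.Agent.CFT.W.Card.LocFin

/-!
# S56 / [GW'] over `𝔽_p` : from `CFT.gw_le` (Part W) to cardinalities of cocycle spaces.

`T = S₀ ∪ Q`, `D = DS T`, `M = (W,ρ)`, `M' = ρ.dual.twist χ ≅ (W',ρ')` via `β` (`exists_equiv_of_pairing`).
Local conditions `locCond`: `L v` at `v ∈ S₀`, `Z¹_q` at `q ∈ Q`.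

* WP GW-SEL  `selZ1_locCond` : `D.SelZ1 ρ locCond = Sel T S₀ ρ L` (the restriction of a global cocycle is a local cocycle: `comp_hom_mem_Z1`).
* WP GW-KILL `finrank_sel_perp` : the dual Selmer group vanishes.  `b ∈ D.SelZ1 M' perp`.  For `q ∈ Q` and `a ∈ Z¹_q(W)`:
  `lam q (a ∪ res_q b) = 0`, `a ∪ res_q b ∈ Z²(D_q,μ_p)` (`cup11_mem_Z2`, W/Selmer.lean), so it is in `B²` by `lam_ne_zero`.
  With `e : W' ≃ Dual W`, `b' = e.symm ∘ b ∈ Z¹(G_T,ρ')` (`comp_mem_Z1`) and `cup11 (evalP) a (res b) = cup11 β a (res b')` pointwise;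
  `hG3` gives `res_q b' ∈ B¹`, `hkill` gives `b' ∈ B¹(ρ')`, so `b = e ∘ b' ∈ B¹(M')` (`comp_mem_B1`).
* `gw_card` : assembly (numerology in the proof).
-/

set_option autoImplicit false

open ExtCitation Module

namespace Fermat.Agent.S56

open CFT (levS levAll decomp Z1 B1 Z2 B2 H1 H2 IsSmooth IsEquivPairing DS cup11 chiRep)

variable {p : ℕ} [Fact p.Prime] {W W' : Type} [AddCommGroup W] [Module (ZMod p) W]
  [AddCommGroup W'] [Module (ZMod p) W']

/-- the local conditions on `DS (S₀ ∪ Q)` : `L v` at `v ∈ S₀`, everything at `q ∈ Q` -/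
noncomputable def locCond (S₀ Q : Finset Nat.Primes) (ρ : Representation (ZMod p) GQ W)
    (L : ∀ v : Nat.Primes, Submodule (ZMod p) (↥(decomp v) → W)) :
    ∀ v : (DS (S₀ ∪ Q)).ι, Submodule (ZMod p) ((DS (S₀ ∪ Q)).Gv v → W) :=
  fun v => if v.1 ∈ S₀ then L v.1 else Z1loc ρ v.1

end Fermat.Agent.S56
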