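import Fermat.Agent.S56.GW.FpDefs

/-! # S56 / [GW'] over `𝔽_p`, WP GW-SEL (see FpDefs.lean). -/

set_option autoImplicit false

open ExtCitation Module

namespace Fermat.Agent.S56

open CFT (levS levAll decomp Z1 B1 Z2 B2 H1 H2 IsSmooth IsEquivPairing DS cup11 chiRep)

variable {p : ℕ} [Fact p.Prime] {W W' : Type} [AddCommGroup W] [Module (ZMod p) W]
  [AddCommGroup W'] [Module (ZMod p) W']

theorem selZ1_locCond (S₀ Q : Finset Nat.Primes) (ρ : Representation (ZMod p) GQ W)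
    (L : ∀ v : Nat.Primes, Submodule (ZMod p) (↥(decomp v) → W)) :
    (DS (S₀ ∪ Q)).SelZ1 ρ (locCond S₀ Q ρ L) = Sel (S₀ ∪ Q) S₀ ρ L := by
  ext c
  rw [mem_Sel]
  constructor
  · rintro ⟨h1, h2⟩
    refine ⟨h1, fun v hv => ?_⟩
    have h3 := h2 ⟨v, Finset.mem_union_left Q hv⟩ (Set.mem_univ _)
    simp only [locCond, if_pos hv] at h3
    exact h3
  · rintro ⟨h1, h2⟩
    refine ⟨h1, fun v _ => ?_⟩
    by_cases hv : v.1 ∈ S₀
    · simp only [locCond, if_pos hv]
      exact h2 v.1 hv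
    · simp only [locCond, if_neg hv]
      refine ⟨?_, ?_⟩
      · refine LinearMap.mem_ker.2 ?_
        funext ⟨g, s⟩
        exact congrFun (LinearMap.mem_ker.1 h1.1) ((g : GQ), (s : GQ))
      · obtain ⟨U, hU, h⟩ := h1.2
        exact ⟨U.comap (decomp v.1).subtype, ⟨U, CFT.levS_le_levAll _ hU, rfl⟩, fun g s hs => h g s hs⟩

end Fermat.Agent.S56
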